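import Fermat.Agent.JL.Main
import Fermat.Agent.JH.Charts

/-!
# S25, block L: the scheme representing the rigidified Picard functor satisfies the uniqueness
part of the valuative criterion
-/

set_option autoImplicit false

universe u

open CategoryTheory CategoryTheory.Limits AlgebraicGeometry NeronModelInfra TensorProduct

namespace Fermat.Agent.JL

open Fermat.Agent.JPC Fermat.Agent.JH

variable {k : Type u} [Field k] {X : TwoChart k}

/-- classes over a valuation ring are determined by the generic fibre -/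
theorem eq_of_map_eq {P : RelFun (Spec (CommRingCat.of k))}
    [∀ {T : Scheme.{u}} (t : T ⟶ Spec (CommRingCat.of k)), CommGroup (P.obj t)]
    (D : Dict X P) {O K : Type u} [CommRing O] [IsDomain O] [ValuationRing O] [Algebra k O]
    [Field K] [Algebra k K] [Algebra O K] [IsScalarTower k O K] [IsFractionRing O K]
    {h h' : P.obj (sB k O)}
    (e : P.map (sMap k (IsScalarTower.toAlgHom k O K)) h =
      P.map (sMap k (IsScalarTower.toAlgHom k O K)) h') : h = h' := by
  obtain ⟨L, hL⟩ := D.ex h
  obtain ⟨L', hL'⟩ := D.ex h'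
  obtain ⟨φ⟩ := (D.eq_iff (D.bc (B' := K) hL) (D.bc (B' := K) hL')).mp e
  exact (D.eq_iff hL hL').mpr (sep (K := K) (D.isLine hL) (D.isLine hL') φ)

/-- **Block L**, functorial form. -/
theorem uniqueness_of_dict {P : RelFun (Spec (CommRingCat.of k))}
    [∀ {T : Scheme.{u}} (t : T ⟶ Spec (CommRingCat.of k)), CommGroup (P.obj t)]
    (D : Dict X P) {J : Scheme.{u}} (p : J ⟶ Spec (CommRingCat.of k)) (univ : P.obj p)
    (hu : ∀ {T : Scheme.{u}} (t : T ⟶ Spec (CommRingCat.of k)) (h : P.obj t),
      ∃! g : SchemeHomOver t p, P.map g univ = h) :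
    ValuativeCriterion.Uniqueness p := by
  rintro ⟨O, K, i₁, i₂, sq⟩
  refine ⟨fun l l' => ?_⟩
  obtain ⟨ψ, rfl⟩ := Spec.map_surjective i₂
  letI : Algebra k O := ψ.hom.toAlgebra
  letI : Algebra k K := ((algebraMap O K).comp ψ.hom).toAlgebra
  haveI : IsScalarTower k O K := IsScalarTower.of_algebraMap_eq' rfl
  let m : SchemeHomOver (sB k O) p := ⟨l.l, l.fac_right⟩
  let m' : SchemeHomOver (sB k O) p := ⟨l'.l, l'.fac_right⟩
  have h1 : P.map (sMap k (IsScalarTower.toAlgHom k O K)) (P.map m univ) =
      P.map (sMap k (IsScalarTower.toAlgHom k O K)) (P.map m' univ) := by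
    rw [P.map_comp, P.map_comp]
    refine P.map_congr ?_ _ _ _
    exact l.fac_left.trans l'.fac_left.symm
  have h2 : P.map m univ = P.map m' univ := eq_of_map_eq D h1
  have h3 : m = m' := (hu (sB k O) _).unique rfl h2.symm
  exact CommSq.LiftStruct.ext (congrArg Subtype.val h3)

end Fermat.Agent.JL
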