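import Fermat.Agent.JL.IsoLift

set_option autoImplicit false

open IsLocalRing TensorProduct

namespace Fermat.Agent.JL

variable {O K : Type*} [CommRing O] [IsDomain O] [ValuationRing O] [Field K] [Algebra O K]
  [IsFractionRing O K]

omit [ValuationRing O] in
/-- `M → K ⊗ M` is injective for torsion free `M` -/
theorem tmul_injective {M : Type*} [AddCommGroup M] [Module O M] [Module.IsTorsionFree O M] {m : M}
    (h : (1 : K) ⊗ₜ[O] m = 0) : m = 0 := by
  have h1 : IsLocalizedModule (nonZeroDivisors O) (TensorProduct.mk O K M 1) :=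
    (isLocalizedModule_iff_isBaseChange (nonZeroDivisors O) K _).mpr
      (TensorProduct.isBaseChange O M K)
  have h2 : TensorProduct.mk O K M 1 m = 0 := h
  rw [IsLocalizedModule.eq_zero_iff (nonZeroDivisors O)] at h2
  obtain ⟨s, hs⟩ := h2
  have hs0 : (s : O) ≠ 0 := nonZeroDivisors.ne_zero s.2
  rcases smul_eq_zero.mp (show (s : O) • m = 0 from hs) with h | h
  · exact absurd h hs0
  · exact h

omit [ValuationRing O] in
theorem tmul_inj {M : Type*} [AddCommGroup M] [Module O M] [Module.IsTorsionFree O M] {m m' : M}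
    (h : (1 : K) ⊗ₜ[O] m = (1 : K) ⊗ₜ[O] m') : m = m' := by
  have h1 : (1 : K) ⊗ₜ[O] (m - m') = 0 := by rw [tmul_sub, h, sub_self]
  exact sub_eq_zero.mp (tmul_injective h1)

omit [ValuationRing O] in
/-- denominators in `K ⊗ N` -/
theorem exists_den {M : Type*} [AddCommGroup M] [Module O M] (N : Submodule O M)
    {z : K ⊗[O] M} (hz : z ∈ N.baseChange K) :
    ∃ d : O, d ≠ 0 ∧ ∃ m ∈ N, algebraMap O K d • z = (1 : K) ⊗ₜ[O] m := by
  rw [Submodule.baseChange_eq_span] at hz
  refine Submodule.span_induction (p := fun z _ => ∃ d : O, d ≠ 0 ∧ ∃ m ∈ N,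
    algebraMap O K d • z = (1 : K) ⊗ₜ[O] m) ?_ ?_ ?_ ?_ hz
  · rintro _ ⟨m, hm, rfl⟩
    exact ⟨1, one_ne_zero, m, hm, by rw [map_one, one_smul]; rfl⟩
  · exact ⟨1, one_ne_zero, 0, N.zero_mem, by rw [smul_zero, tmul_zero]⟩
  · rintro x y - - ⟨d, hd, m, hm, h⟩ ⟨d', hd', m', hm', h'⟩
    refine ⟨d * d', mul_ne_zero hd hd', d' • m + d • m',
      N.add_mem (N.smul_mem _ hm) (N.smul_mem _ hm'), ?_⟩
    rw [smul_add, map_mul, mul_comm, mul_smul, h, mul_comm, mul_smul, h', tmul_add, tmul_smul,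
      tmul_smul, algebraMap_smul, algebraMap_smul]
  · rintro c x - ⟨d, hd, m, hm, h⟩
    obtain ⟨a, b, hb, rfl⟩ := IsFractionRing.div_surjective (A := O) c
    have hb0 : algebraMap O K b ≠ 0 := IsFractionRing.to_map_ne_zero_of_mem_nonZeroDivisors hb
    refine ⟨b * d, mul_ne_zero (nonZeroDivisors.ne_zero hb) hd, a • m, N.smul_mem _ hm, ?_⟩
    rw [tmul_smul, ← h, map_mul, ← algebraMap_smul K a, ← mul_smul, ← mul_smul]
    congr 1
    field_simp

section

variable {R M M' : Type*} [CommRing R] [Algebra O R]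
  [AddCommGroup M] [Module R M] [Module O M] [IsScalarTower O R M]
  [AddCommGroup M'] [Module R M'] [Module O M'] [IsScalarTower O R M']

/-- multiplication by `r` as an `O`-linear map -/
def lact (O : Type*) [CommRing O] {R : Type*} (M : Type*) [CommRing R] [Algebra O R]
    [AddCommGroup M] [Module R M] [Module O M] [IsScalarTower O R M] (r : R) : M →ₗ[O] M :=
  (LinearMap.lsmul R M r).restrictScalars O

omit [IsDomain O] [ValuationRing O] in
@[simp] theorem lact_apply (r : R) (m : M) : lact O M r m = r • m := rfl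

omit [ValuationRing O] in
/-- a map of the generic fibres comes, up to a denominator, from an `R`-linear map -/
theorem exists_integral (φ : K ⊗[O] M →ₗ[K] K ⊗[O] M')
    (hφ : ∀ (r : R) (z : K ⊗[O] M), φ ((lact O M r).baseChange K z) =
      (lact O M' r).baseChange K (φ z))
    (N : Submodule R M) (N' : Submodule R M') [Module.Finite R N] [Module.IsTorsionFree O M']
    (hN : ∀ z ∈ (N.restrictScalars O).baseChange K, φ z ∈ (N'.restrictScalars O).baseChange K) :
    ∃ (d : O) (f : N →ₗ[R] N'), d ≠ 0 ∧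
      ∀ m : N, (1 : K) ⊗ₜ[O] (f m : M') = algebraMap O K d • φ (1 ⊗ₜ[O] (m : M)) := by
  classical
  obtain ⟨n, p, hp⟩ := Module.Finite.exists_fin (R := R) (M := N)
  have h1 : ∀ i, ∃ d : O, d ≠ 0 ∧ ∃ m' ∈ N'.restrictScalars O,
      algebraMap O K d • φ (1 ⊗ₜ[O] (p i : M)) = (1 : K) ⊗ₜ[O] m' := fun i =>
    exists_den (K := K) (N'.restrictScalars O) (hN _ (Submodule.tmul_mem_baseChange_of_mem _ (p i).2))
  choose d hd m' hm' hdm using h1
  let D : O := ∏ i, d i
  have hD : D ≠ 0 := Finset.prod_ne_zero_iff.mpr fun i _ => hd i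
  have h2 : ∀ m : N, ∃ m' : N', (1 : K) ⊗ₜ[O] (m' : M') =
      algebraMap O K D • φ (1 ⊗ₜ[O] (m : M)) := by
    intro m
    have hm : m ∈ Submodule.span R (Set.range p) := by rw [hp]; trivial
    refine Submodule.span_induction (p := fun (m : N) _ => ∃ m' : N', (1 : K) ⊗ₜ[O] (m' : M') =
      algebraMap O K D • φ (1 ⊗ₜ[O] (m : M))) ?_ ?_ ?_ ?_ hm
    · rintro _ ⟨i, rfl⟩
      refine ⟨⟨(∏ j ∈ Finset.univ.erase i, d j) • m' i,
        (N'.restrictScalars O).smul_mem _ (hm' i)⟩, ?_⟩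
      show (1 : K) ⊗ₜ[O] ((∏ j ∈ Finset.univ.erase i, d j) • m' i) = _
      rw [tmul_smul, ← hdm i, ← algebraMap_smul K (∏ j ∈ Finset.univ.erase i, d j), ← mul_smul,
        ← map_mul]
      congr 2
      exact Finset.prod_erase_mul _ _ (Finset.mem_univ i)
    · exact ⟨0, by simp⟩
    · rintro x y - - ⟨x', hx⟩ ⟨y', hy⟩
      exact ⟨x' + y', by
        rw [Submodule.coe_add, Submodule.coe_add, tmul_add, tmul_add, map_add, smul_add, hx, hy]⟩
    · rintro r x - ⟨x', hx⟩
      refine ⟨r • x', ?_⟩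
      rw [Submodule.coe_smul, Submodule.coe_smul]
      have h3 : (1 : K) ⊗ₜ[O] (r • (x' : M')) = (lact O M' r).baseChange K (1 ⊗ₜ[O] (x' : M')) := by
        rw [LinearMap.baseChange_tmul]; rfl
      have h4 : (1 : K) ⊗ₜ[O] (r • (x : M)) = (lact O M r).baseChange K (1 ⊗ₜ[O] (x : M)) := by
        rw [LinearMap.baseChange_tmul]; rfl
      rw [h3, hx, map_smul, ← hφ, h4]
  choose f hf using h2
  refine ⟨D, { toFun := f, map_add' := ?_, map_smul' := ?_ }, hD, hf⟩
  · intro x y
    apply Subtype.ext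
    apply tmul_inj (O := O) (K := K)
    rw [hf, Submodule.coe_add, Submodule.coe_add, tmul_add, tmul_add, map_add, smul_add, hf, hf]
  · intro r x
    apply Subtype.ext
    apply tmul_inj (O := O) (K := K)
    rw [hf, RingHom.id_apply, Submodule.coe_smul, Submodule.coe_smul]
    have h3 : (1 : K) ⊗ₜ[O] (r • (f x : M')) = (lact O M' r).baseChange K (1 ⊗ₜ[O] (f x : M')) := by
      rw [LinearMap.baseChange_tmul]; rfl
    have h4 : (1 : K) ⊗ₜ[O] (r • (x : M)) = (lact O M r).baseChange K (1 ⊗ₜ[O] (x : M)) := by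
      rw [LinearMap.baseChange_tmul]; rfl
    rw [h3, hf, map_smul, ← hφ, h4]

/-- an isomorphism of generic fibres is on a chart a multiple of an isomorphism -/
theorem exists_chart_iso (hdom : IsDomain (R ⧸ (maximalIdeal O).map (algebraMap O R)))
    (N : Submodule R M) (N' : Submodule R M') [Module.Invertible R N] [Module.Invertible R N']
    [Module.Projective O N] [Module.Projective O N'] [Module.IsTorsionFree O M]
    [Module.IsTorsionFree O M'] (φ : K ⊗[O] M ≃ₗ[K] K ⊗[O] M')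
    (hφ : ∀ (r : R) (z : K ⊗[O] M), φ ((lact O M r).baseChange K z) =
      (lact O M' r).baseChange K (φ z))
    (hN : ((N.restrictScalars O).baseChange K).map (φ : K ⊗[O] M →ₗ[K] K ⊗[O] M') =
      (N'.restrictScalars O).baseChange K) :
    ∃ (c : K) (f1 : N ≃ₗ[R] N'), c ≠ 0 ∧
      ∀ m : N, (1 : K) ⊗ₜ[O] (f1 m : M') = c • φ (1 ⊗ₜ[O] (m : M)) := by
  have hφ' : ∀ (r : R) (z : K ⊗[O] M'), φ.symm ((lact O M' r).baseChange K z) =
      (lact O M r).baseChange K (φ.symm z) := by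
    intro r z
    apply φ.injective
    rw [LinearEquiv.apply_symm_apply, hφ, LinearEquiv.apply_symm_apply]
  obtain ⟨d, f, hd, hf⟩ := exists_integral (φ : K ⊗[O] M →ₗ[K] K ⊗[O] M') hφ N N'
    (fun z hz => by rw [← hN]; exact Submodule.mem_map_of_mem hz)
  obtain ⟨d', g, hd', hg⟩ := exists_integral (φ.symm : K ⊗[O] M' →ₗ[K] K ⊗[O] M) hφ' N' N
    (fun z hz => by
      rw [← hN] at hz
      obtain ⟨y, hy, rfl⟩ := hz
      have : (φ.symm : K ⊗[O] M' →ₗ[K] K ⊗[O] M) ((φ : K ⊗[O] M →ₗ[K] K ⊗[O] M') y) = y :=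
        φ.symm_apply_apply y
      rw [this]; exact hy)
  have hgf : ∀ x, g (f x) = (d * d') • x := by
    intro x
    apply Subtype.ext
    apply tmul_inj (O := O) (K := K)
    rw [hg, hf]
    show algebraMap O K d' • φ.symm (algebraMap O K d • φ (1 ⊗ₜ[O] (x : M))) = _
    rw [map_smul, φ.symm_apply_apply, ← mul_smul, ← map_mul, algebraMap_smul, ← tmul_smul,
      mul_comm d' d]
    rfl
  have hfg : ∀ y, f (g y) = (d * d') • y := by
    intro y
    apply Subtype.ext
    apply tmul_inj (O := O) (K := K)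
    rw [hf, hg]
    show algebraMap O K d • φ (algebraMap O K d' • φ.symm (1 ⊗ₜ[O] (y : M'))) = _
    rw [map_smul, φ.apply_symm_apply, ← mul_smul, ← map_mul, algebraMap_smul, ← tmul_smul]
    rfl
  obtain ⟨e, f1, he, hf1⟩ := exists_iso hdom f g (d * d') (mul_ne_zero hd hd') hgf hfg
  have heK : algebraMap O K e ≠ 0 := by
    rw [Ne, IsFractionRing.to_map_eq_zero_iff]; exact he
  have hdK : algebraMap O K d ≠ 0 := by
    rw [Ne, IsFractionRing.to_map_eq_zero_iff]; exact hd
  refine ⟨(algebraMap O K e)⁻¹ * algebraMap O K d, f1, mul_ne_zero (inv_ne_zero heK) hdK, ?_⟩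
  intro m
  have h1 := hf m
  rw [hf1] at h1
  have h2 : (1 : K) ⊗ₜ[O] ((e • f1 m : N') : M') = algebraMap O K e • ((1 : K) ⊗ₜ[O] (f1 m : M')) := by
    rw [algebraMap_smul, ← tmul_smul]; rfl
  rw [h2] at h1
  rw [mul_smul]
  have h3 := congrArg (fun z => (algebraMap O K e)⁻¹ • z) h1
  simp only [inv_smul_smul₀ heK] at h3
  exact h3

/-- comparison of the scalars of two charts -/
theorem isUnit_of_smul (hdom : IsDomain (R ⧸ (maximalIdeal O).map (algebraMap O R)))
    (N' : Submodule R M') [Module.Invertible R N'] (τ : R)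
    (hτ : τ ∉ (maximalIdeal O).map (algebraMap O R)) {x : N'}
    (hx : x ∉ (maximalIdeal O) • (⊤ : Submodule O N')) {z : M'} {a : O} (h : (x : M') = a • z)
    (p : ℕ) (hz : τ ^ p • z ∈ N') : IsUnit a := by
  by_contra hna
  have ha : a ∈ maximalIdeal O := (mem_maximalIdeal a).mpr hna
  have h1 : τ ^ p • x = a • (⟨τ ^ p • z, hz⟩ : N') := by
    apply Subtype.ext
    show τ ^ p • (x : M') = a • (τ ^ p • z)
    rw [h, smul_comm]
  have h0 : (algebraMap O R a) • (1 : R ⧸ (maximalIdeal O).map (algebraMap O R)) = 0 := by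
    rw [Algebra.smul_def, mul_one]
    exact Ideal.Quotient.eq_zero_iff_mem.mpr (Ideal.mem_map_of_mem _ ha)
  have h2 : (1 : R ⧸ (maximalIdeal O).map (algebraMap O R)) ⊗ₜ[R] (τ ^ p • x) = 0 := by
    rw [h1, ← algebraMap_smul R a (⟨τ ^ p • z, hz⟩ : N'), tmul_smul, smul_tmul', h0, zero_tmul]
  have h3 : (Ideal.Quotient.mk ((maximalIdeal O).map (algebraMap O R)) (τ ^ p)) •
      ((1 : R ⧸ (maximalIdeal O).map (algebraMap O R)) ⊗ₜ[R] x) = 0 := by
    rw [smul_tmul', smul_eq_mul, mul_one, ← h2, tmul_smul, smul_tmul', Algebra.smul_def, mul_one]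
    rfl
  have : Module.Flat (R ⧸ (maximalIdeal O).map (algebraMap O R))
    ((R ⧸ (maximalIdeal O).map (algebraMap O R)) ⊗[R] N') := inferInstance
  rcases smul_eq_zero.mp h3 with h4 | h4
  · rw [map_pow] at h4
    exact pow_ne_zero p (fun h => hτ (Ideal.Quotient.eq_zero_iff_mem.mp h)) h4
  · exact hx (mem_of_tmul_eq_zero (R := R) h4)

end

end Fermat.Agent.JL
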