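import Mathlib

/-!
# Contents of vectors in projective modules over valuation rings, and isomorphisms of invertible
modules over algebras over valuation rings
-/

set_option autoImplicit false

open IsLocalRing

namespace Fermat.Agent.JL

theorem exists_min_dvd {O : Type*} [CommRing O] [IsDomain O] [ValuationRing O] (S : Finset O)
    (hS : S.Nonempty) : ∃ e ∈ S, ∀ x ∈ S, e ∣ x := by
  classical
  induction S using Finset.induction_on with
  | empty => exact absurd hS (by simp)
  | insert a S ha ih =>
    rcases S.eq_empty_or_nonempty with rfl | hS'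
    · exact ⟨a, by simp, by simp⟩
    · obtain ⟨e, he, h⟩ := ih hS'
      rcases ValuationRing.dvd_total a e with h1 | h1
      · refine ⟨a, by simp, fun x hx => ?_⟩
        rcases Finset.mem_insert.mp hx with rfl | hx
        · exact dvd_rfl
        · exact h1.trans (h x hx)
      · refine ⟨e, Finset.mem_insert_of_mem he, fun x hx => ?_⟩
        rcases Finset.mem_insert.mp hx with rfl | hx
        · exact h1
        · exact h x hx

variable {O : Type*} [CommRing O] [IsDomain O] [ValuationRing O]

/-- **Content**: a finite family of elements, not all zero, of a projective module over a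
valuation ring is a multiple of a primitive family. -/
theorem exists_content {N : Type*} [AddCommGroup N] [Module O N] [Module.Projective O N]
    {ι : Type*} [Finite ι] (n' : ι → N) (h0 : ∃ i, n' i ≠ 0) :
    ∃ (e : O) (n : ι → N), e ≠ 0 ∧ (∀ i, n' i = e • n i) ∧
      ∃ i, n i ∉ (maximalIdeal O) • (⊤ : Submodule O N) := by
  classical
  have := Fintype.ofFinite ι
  obtain ⟨s, hs⟩ := Module.projective_def'.mp (inferInstance : Module.Projective O N)
  have hsid : ∀ x, Finsupp.linearCombination O id (s x) = x := fun x => LinearMap.congr_fun hs x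
  let S : Finset O := Finset.univ.biUnion fun i => (s (n' i)).support.image (s (n' i))
  have hSne : S.Nonempty := by
    obtain ⟨i, hi⟩ := h0
    have h1 : s (n' i) ≠ 0 := by
      intro h2
      apply hi
      rw [← hsid (n' i), h2, map_zero]
    obtain ⟨j, hj⟩ := Finsupp.support_nonempty_iff.mpr h1
    exact ⟨s (n' i) j, Finset.mem_biUnion.mpr ⟨i, Finset.mem_univ _,
      Finset.mem_image.mpr ⟨j, hj, rfl⟩⟩⟩
  obtain ⟨e, heS, hdvd⟩ := exists_min_dvd S hSne
  obtain ⟨i₀, -, h2⟩ := Finset.mem_biUnion.mp heS
  obtain ⟨j₀, hj₀, hej₀⟩ := Finset.mem_image.mp h2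
  have he0 : e ≠ 0 := by
    rw [← hej₀]; exact Finsupp.mem_support_iff.mp hj₀
  let q : O → O := fun x => if h : e ∣ x then h.choose else 0
  have hq : ∀ x, e ∣ x → e * q x = x := by
    intro x hx
    simp only [q, dif_pos hx]
    exact hx.choose_spec.symm
  have hq0 : q 0 = 0 := by
    have := hq 0 (dvd_zero e)
    exact (mul_eq_zero.mp this).resolve_left he0
  let f : ι → (N →₀ O) := fun i => Finsupp.mapRange q hq0 (s (n' i))
  have hf : ∀ i, e • f i = s (n' i) := by
    intro i
    ext j
    rw [Finsupp.smul_apply, Finsupp.mapRange_apply, smul_eq_mul]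
    by_cases hj : s (n' i) j = 0
    · rw [hj, hq0, mul_zero]
    · exact hq _ (hdvd _ (Finset.mem_biUnion.mpr ⟨i, Finset.mem_univ _,
        Finset.mem_image.mpr ⟨j, Finsupp.mem_support_iff.mpr hj, rfl⟩⟩))
  refine ⟨e, fun i => Finsupp.linearCombination O id (f i), he0, ?_, ?_⟩
  · intro i
    rw [← map_smul, hf, hsid]
  · refine ⟨i₀, fun hmem => ?_⟩
    have hfi : f i₀ = s (Finsupp.linearCombination O id (f i₀)) := by
      have h3 : e • f i₀ = e • s (Finsupp.linearCombination O id (f i₀)) := by
        rw [← map_smul, ← map_smul, hf, hsid]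
      exact smul_right_injective _ he0 h3
    have hcoord : ∀ x ∈ (maximalIdeal O) • (⊤ : Submodule O N), s x j₀ ∈ maximalIdeal O := by
      intro x hx
      refine Submodule.smul_induction_on hx ?_ ?_
      · intro r hr y _
        rw [map_smul, Finsupp.smul_apply, smul_eq_mul]
        exact Ideal.mul_mem_right _ _ hr
      · intro x y hx hy
        rw [map_add, Finsupp.add_apply]
        exact add_mem hx hy
    have h4 := hcoord _ hmem
    rw [← hfi] at h4
    have h5 : f i₀ j₀ = 1 := by
      have h6 := congrArg (fun z => z j₀) (hf i₀)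
      simp only [Finsupp.smul_apply, smul_eq_mul] at h6
      rw [hej₀] at h6
      exact mul_left_cancel₀ he0 (by rw [h6, mul_one])
    rw [h5] at h4
    exact (Ideal.ne_top_iff_one _).mp (maximalIdeal.isMaximal O).ne_top h4

end Fermat.Agent.JL
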