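import Fermat.Agent.JL.Content

set_option autoImplicit false

open IsLocalRing TensorProduct

namespace Fermat.Agent.JL

theorem eq_zero_of_one_tmul {D : Type*} [CommRing D] [IsDomain D] {P : Type*} [AddCommGroup P]
    [Module D P] [Module.Flat D P] (x : P) (hx : (1 : FractionRing D) ⊗ₜ[D] x = 0) : x = 0 := by
  have h1 : Function.Injective (algebraMap D (FractionRing D)) :=
    IsFractionRing.injective D (FractionRing D)
  have h2 := Module.Flat.rTensor_preserves_injective_linearMap (M := P)
    (Algebra.linearMap D (FractionRing D)) h1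
  have h3 : (LinearMap.rTensor P (Algebra.linearMap D (FractionRing D))) ((1 : D) ⊗ₜ[D] x) = 0 := by
    rw [LinearMap.rTensor_tmul]
    simpa using hx
  have h4 := (map_eq_zero_iff _ h2).mp h3
  have h5 := congrArg (TensorProduct.lid D P) h4
  simpa using h5

/-- a nonzero map between invertible modules over a domain is injective -/
theorem injective_of_ne_zero {D : Type*} [CommRing D] [IsDomain D] {N N' : Type*}
    [AddCommGroup N] [Module D N] [AddCommGroup N'] [Module D N'] [Module.Invertible D N]
    [Module.Invertible D N'] (f : N →ₗ[D] N') (hf : f ≠ 0) : Function.Injective f := by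
  let L := FractionRing D
  obtain ⟨x, hx⟩ : ∃ x, f x ≠ 0 := by
    by_contra hcon
    push Not at hcon
    exact hf (LinearMap.ext hcon)
  have hrank : Module.finrank L (L ⊗[D] N) = 1 := Module.Invertible.finrank_eq_one L _
  have hx1 : (1 : L) ⊗ₜ[D] x ≠ 0 := by
    intro h
    apply hx
    rw [eq_zero_of_one_tmul x h, map_zero]
  rw [injective_iff_map_eq_zero]
  intro y hy
  obtain ⟨c, hc⟩ := exists_smul_eq_of_finrank_eq_one hrank hx1 ((1 : L) ⊗ₜ[D] y)
  have h1 := congrArg (f.baseChange L) hc
  rw [map_smul, LinearMap.baseChange_tmul, LinearMap.baseChange_tmul, hy, tmul_zero] at h1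
  rcases smul_eq_zero.mp h1 with h2 | h2
  · rw [h2, zero_smul] at hc
    exact eq_zero_of_one_tmul y hc.symm
  · exact absurd (eq_zero_of_one_tmul _ h2) hx

variable {O : Type*} [CommRing O] [IsDomain O] [ValuationRing O]

section

variable {R P P' : Type*} [CommRing R] [Algebra O R] [AddCommGroup P] [Module R P] [Module O P]
  [IsScalarTower O R P] [AddCommGroup P'] [Module R P'] [Module O P'] [IsScalarTower O R P']

omit [Module O P] [IsScalarTower O R P] in
/-- division of a nonzero map by its content -/
theorem exists_divide [Module.Finite R P] [Module.Projective O P'] (f : P →ₗ[R] P') (hf : f ≠ 0) :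
    ∃ (e : O) (f1 : P →ₗ[R] P'), e ≠ 0 ∧ (∀ x, f x = e • f1 x) ∧
      ∃ x, f1 x ∉ (maximalIdeal O) • (⊤ : Submodule O P') := by
  obtain ⟨n, p, hp⟩ := Module.Finite.exists_fin (R := R) (M := P)
  have hne : ∃ i, f (p i) ≠ 0 := by
    by_contra hcon
    push Not at hcon
    apply hf
    refine LinearMap.ext_on_range (v := p) ?_ fun i => by rw [hcon i, LinearMap.zero_apply]
    exact hp
  obtain ⟨e, q, he, hq, i₀, hi₀⟩ := exists_content (O := O) (fun i => f (p i)) hne
  have hinj : Function.Injective fun y : P' => e • y := smul_right_injective P' he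
  have hex : ∀ x : P, ∃ y : P', f x = e • y := by
    intro x
    have hx : x ∈ Submodule.span R (Set.range p) := by rw [hp]; trivial
    refine Submodule.span_induction (p := fun x _ => ∃ y : P', f x = e • y) ?_ ?_ ?_ ?_ hx
    · rintro _ ⟨i, rfl⟩; exact ⟨q i, hq i⟩
    · exact ⟨0, by rw [map_zero, smul_zero]⟩
    · rintro x z - - ⟨y, hy⟩ ⟨w, hw⟩
      exact ⟨y + w, by rw [map_add, hy, hw, smul_add]⟩
    · rintro r x - ⟨y, hy⟩
      exact ⟨r • y, by rw [map_smul, hy, smul_comm]⟩
  choose g hg using hex
  let f1 : P →ₗ[R] P' :=
    { toFun := g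
      map_add' := fun x y => hinj (by
        show e • g (x + y) = e • (g x + g y)
        rw [smul_add, ← hg, ← hg, ← hg, map_add])
      map_smul' := fun r x => hinj (by
        show e • g (r • x) = e • (r • g x)
        rw [smul_comm e r, ← hg, ← hg, map_smul]) }
  refine ⟨e, f1, he, hg, p i₀, ?_⟩
  have : f1 (p i₀) = q i₀ := hinj (by
    show e • g (p i₀) = e • q i₀
    rw [← hg, ← hq])
  rw [this]
  exact hi₀

/-- elements of `𝔪 R • P` -/
theorem mem_smul_top_of_mem_map {y : P}
    (hy : y ∈ ((maximalIdeal O).map (algebraMap O R)) • (⊤ : Submodule R P)) :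
    y ∈ (maximalIdeal O) • (⊤ : Submodule O P) := by
  refine Submodule.smul_induction_on hy ?_ ?_
  · intro r hr x _
    refine Submodule.span_induction
      (p := fun r _ => ∀ x : P, r • x ∈ (maximalIdeal O) • (⊤ : Submodule O P))
      ?_ ?_ ?_ ?_ hr x
    · rintro _ ⟨a, ha, rfl⟩ x
      rw [algebraMap_smul]
      exact Submodule.smul_mem_smul ha trivial
    · intro x; rw [zero_smul]; exact zero_mem _
    · intro a b _ _ ha hb x
      rw [add_smul]; exact add_mem (ha x) (hb x)
    · intro a b _ hb x
      rw [smul_eq_mul, mul_comm, mul_smul]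
      exact hb _
  · intro x y hx hy; exact add_mem hx hy

theorem mem_of_tmul_eq_zero {y : P}
    (hy : (1 : R ⧸ (maximalIdeal O).map (algebraMap O R)) ⊗ₜ[R] y = 0) :
    y ∈ (maximalIdeal O) • (⊤ : Submodule O P) := by
  apply mem_smul_top_of_mem_map (R := R)
  have h1 := congrArg (quotTensorEquivQuotSMul P ((maximalIdeal O).map (algebraMap O R))) hy
  rw [map_zero] at h1
  have h2 : quotTensorEquivQuotSMul P ((maximalIdeal O).map (algebraMap O R))
      ((1 : R ⧸ (maximalIdeal O).map (algebraMap O R)) ⊗ₜ[R] y) = Submodule.Quotient.mk y := by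
    have := quotTensorEquivQuotSMul_mk_tmul ((maximalIdeal O).map (algebraMap O R)) (1 : R) y
    rw [one_smul] at this
    exact this
  rw [h2, Submodule.Quotient.mk_eq_zero] at h1
  exact h1

theorem nontrivial_of_invertible {S Q : Type*} [CommRing S] [Nontrivial S] [AddCommGroup Q]
    [Module S Q] [Module.Invertible S Q] : Nontrivial Q := by
  by_contra hcon
  rw [not_nontrivial_iff_subsingleton] at hcon
  exact one_ne_zero (α := S) (FaithfulSMul.eq_of_smul_eq_smul (α := Q)
    fun x => Subsingleton.elim _ _)

/-- **Isomorphisms of invertible modules over a valuation ring**: an isomorphism after inverting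
the nonzero elements of `O` is a multiple of an isomorphism. -/
theorem exists_iso (hdom : IsDomain (R ⧸ (maximalIdeal O).map (algebraMap O R)))
    [Module.Invertible R P] [Module.Invertible R P'] [Module.Projective O P]
    [Module.Projective O P'] (f : P →ₗ[R] P') (g : P' →ₗ[R] P) (a : O) (ha : a ≠ 0)
    (hgf : ∀ x, g (f x) = a • x) (hfg : ∀ y, f (g y) = a • y) :
    ∃ (e : O) (f1 : P ≃ₗ[R] P'), e ≠ 0 ∧ ∀ x, f x = e • f1 x := by
  have hRn : Nontrivial R := by
    by_contra hcon
    rw [not_nontrivial_iff_subsingleton] at hcon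
    have := hdom.toNontrivial
    exact not_subsingleton (R ⧸ (maximalIdeal O).map (algebraMap O R))
      (Ideal.Quotient.mk_surjective.subsingleton)
  have hPn : Nontrivial P := nontrivial_of_invertible (S := R)
  have hP'n : Nontrivial P' := nontrivial_of_invertible (S := R)
  have hf0 : f ≠ 0 := by
    rintro rfl
    obtain ⟨x, hx⟩ := exists_ne (0 : P)
    have := hgf x
    rw [LinearMap.zero_apply, map_zero] at this
    exact (smul_ne_zero ha hx) this.symm
  have hg0 : g ≠ 0 := by
    rintro rfl
    obtain ⟨x, hx⟩ := exists_ne (0 : P')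
    have := hfg x
    rw [LinearMap.zero_apply, map_zero] at this
    exact (smul_ne_zero ha hx) this.symm
  obtain ⟨e, f1, he, hf1, x₀, hx₀⟩ := exists_divide (O := O) f hf0
  obtain ⟨e', g1, he', hg1, y₀, hy₀⟩ := exists_divide (O := O) g hg0
  have key1 : ∀ x, (e * e') • g1 (f1 x) = a • x := by
    intro x
    rw [← hgf, hf1, hg1, LinearMap.map_smul_of_tower, mul_comm e e', mul_smul]
  have key2 : ∀ y, (e * e') • f1 (g1 y) = a • y := by
    intro y
    rw [← hfg, hg1, hf1, LinearMap.map_smul_of_tower, mul_smul]
  have hee : e * e' ≠ 0 := mul_ne_zero he he'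
  have hbij : Function.Bijective f1 := by
    rcases ValuationRing.dvd_total (e * e') a with ⟨u, hu⟩ | ⟨v, hv⟩
    · have hu0 : u ≠ 0 := by
        rintro rfl
        exact ha (by rw [hu, mul_zero])
      have k1 : ∀ x, g1 (f1 x) = u • x := by
        intro x
        have := key1 x
        rw [hu, mul_smul (e * e') u] at this
        exact smul_right_injective P hee this
      have k2 : ∀ y, f1 (g1 y) = u • y := by
        intro y
        have := key2 y
        rw [hu, mul_smul (e * e') u] at this
        exact smul_right_injective P' hee this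
      have hunit : IsUnit u := by
        by_contra hnu
        have hum : u ∈ maximalIdeal O := (mem_maximalIdeal u).mpr hnu
        have hg1b : (g1.baseChange (R ⧸ (maximalIdeal O).map (algebraMap O R))) ≠ 0 := by
          intro h0
          apply hy₀
          apply mem_of_tmul_eq_zero (R := R)
          have := LinearMap.congr_fun h0
            ((1 : R ⧸ (maximalIdeal O).map (algebraMap O R)) ⊗ₜ[R] y₀)
          rwa [LinearMap.baseChange_tmul] at this
        have hinj := injective_of_ne_zero _ hg1b
        apply hx₀
        apply mem_of_tmul_eq_zero (R := R)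
        apply hinj
        rw [LinearMap.baseChange_tmul, k1, map_zero, ← algebraMap_smul R u x₀, tmul_smul,
          smul_tmul']
        have h0 : (algebraMap O R u) • (1 : R ⧸ (maximalIdeal O).map (algebraMap O R)) = 0 := by
          rw [Algebra.smul_def, mul_one]
          exact Ideal.Quotient.eq_zero_iff_mem.mpr (Ideal.mem_map_of_mem _ hum)
        rw [h0, zero_tmul]
      obtain ⟨w, rfl⟩ := hunit
      constructor
      · rw [injective_iff_map_eq_zero]
        intro x hx
        have := k1 x
        rw [hx, map_zero] at this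
        rcases smul_eq_zero.mp this.symm with h | h
        · exact absurd h hu0
        · exact h
      · intro y
        refine ⟨((w⁻¹ : Oˣ) : O) • g1 y, ?_⟩
        rw [LinearMap.map_smul_of_tower, k2, ← mul_smul, Units.inv_mul, one_smul]
    · have k1 : ∀ x, v • g1 (f1 x) = x := by
        intro x
        have := key1 x
        rw [hv, mul_smul] at this
        exact smul_right_injective P ha this
      have k2 : ∀ y, v • f1 (g1 y) = y := by
        intro y
        have := key2 y
        rw [hv, mul_smul] at this
        exact smul_right_injective P' ha this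
      constructor
      · rw [injective_iff_map_eq_zero]
        intro x hx
        rw [← k1 x, hx, map_zero, smul_zero]
      · intro y
        refine ⟨v • g1 y, ?_⟩
        rw [LinearMap.map_smul_of_tower, k2]
  exact ⟨e, LinearEquiv.ofBijective f1 hbij, he, fun x => hf1 x⟩

end

end Fermat.Agent.JL
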