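import Fermat.Agent.JL.Sep

/-!
# S25, block L: line bundles over a valuation ring are determined by the generic fibre
-/

set_option autoImplicit false
set_option linter.style.haveILetI false

universe u

open IsLocalRing TensorProduct

namespace Fermat.Agent.JL

open Fermat.Agent.JPC

/-- abstract glueing of a map over the fraction field -/
theorem exists_descend {O K M M' : Type*} [CommRing O] [IsDomain O] [Field K] [Algebra O K]
    [IsFractionRing O K] [AddCommGroup M] [Module O M] [AddCommGroup M'] [Module O M']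
    [Module.IsTorsionFree O M] [Module.IsTorsionFree O M'] (φ : K ⊗[O] M ≃ₗ[K] K ⊗[O] M')
    (c : K) (hc : c ≠ 0)
    (h : ∀ m : M, ∃ m' : M', (1 : K) ⊗ₜ[O] m' = c • φ ((1 : K) ⊗ₜ[O] m))
    (h' : ∀ m' : M', ∃ m : M, (1 : K) ⊗ₜ[O] m' = c • φ ((1 : K) ⊗ₜ[O] m)) :
    ∃ e : M ≃ₗ[O] M', ∀ m : M, (1 : K) ⊗ₜ[O] (e m) = c • φ ((1 : K) ⊗ₜ[O] m) := by
  choose f hf using h
  choose g hg using h'
  refine ⟨LinearEquiv.ofBijective
    { toFun := f
      map_add' := fun x y => ?_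
      map_smul' := fun r x => ?_ } ⟨fun x y hxy => ?_, fun y => ⟨g y, ?_⟩⟩, hf⟩
  · apply tmul_inj (O := O) (K := K)
    rw [hf, tmul_add, tmul_add, map_add, smul_add, hf, hf]
  · apply tmul_inj (O := O) (K := K)
    rw [hf, RingHom.id_apply, tmul_smul, tmul_smul, hf, ← algebraMap_smul K r,
      ← algebraMap_smul K r, map_smul, smul_comm]
  · have h1 : f x = f y := hxy
    apply tmul_inj (O := O) (K := K)
    have h2 := hf x
    rw [h1, hf y] at h2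
    exact (φ.injective ((smul_right_injective _ hc) h2)).symm
  · apply tmul_inj (O := O) (K := K)
    show (1 : K) ⊗ₜ[O] (f (g y)) = _
    rw [hf, ← hg]

section

variable {k : Type u} [Field k] {X : TwoChart k} {O : Type u} [CommRing O] [IsDomain O]
  [ValuationRing O] [Algebra k O] {K : Type u} [Field K] [Algebra k K] [Algebra O K]
  [IsScalarTower k O K] [IsFractionRing O K]

/-- the inverse action -/
theorem act_act_symm (L : PreLD X O) (a b : X.A) (h : a * b = 1) (z : K ⊗[O] L.M) :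
    (L.actA a).baseChange K ((L.actA b).baseChange K z) = z := by
  rw [← LinearMap.comp_apply, ← LinearMap.baseChange_comp]
  have : (L.actA a) ∘ₗ (L.actA b) = LinearMap.id := by
    ext m
    show a • b • m = m
    rw [← mul_smul, h, one_smul]
  rw [this, LinearMap.baseChange_id, LinearMap.id_apply]

/-- divide by `a` : from `m ∈ M`, `a • m ∈ N`. -/
theorem lift_of_smul {L L' : PreLD X O} (φ : (L.baseChange K).Iso (L'.baseChange K)) (c : K)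
    (a b : X.A) (hba : b * a = 1) (m : L.M) (w : L'.M)
    (hw : (1 : K) ⊗ₜ[O] w = c • phi L L' φ ((1 : K) ⊗ₜ[O] (a • m))) :
    (1 : K) ⊗ₜ[O] (b • w) = c • phi L L' φ ((1 : K) ⊗ₜ[O] m) := by
  rw [one_act, hw, phi_one_act, map_smul, act_act_symm L' b a hba]

theorem lift_of_smul' {L L' : PreLD X O} (φ : (L.baseChange K).Iso (L'.baseChange K)) (c : K)
    (a b : X.A) (hab : b * a = 1) (w : L.M) (m' : L'.M)
    (hw : (1 : K) ⊗ₜ[O] (a • m') = c • phi L L' φ ((1 : K) ⊗ₜ[O] w)) :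
    (1 : K) ⊗ₜ[O] m' = c • phi L L' φ ((1 : K) ⊗ₜ[O] (b • w)) := by
  rw [phi_one_act, ← map_smul, ← hw, ← one_act, ← mul_smul, hab, one_smul]

theorem tn_inv (X : TwoChart k) (n : ℕ) :
    ((X.t⁻¹ : X.Aˣ) : X.A) ^ n * ((X.t : X.A) ^ n) = 1 := by
  rw [← mul_pow, Units.inv_mul, one_pow]

theorem tn_inv' (X : TwoChart k) (n : ℕ) :
    (X.t : X.A) ^ n * ((X.t⁻¹ : X.Aˣ) : X.A) ^ n = 1 := by
  rw [← mul_pow, Units.mul_inv, one_pow]

theorem chart0 {L L' : PreLD X O} (hL : L.IsLine) (hL' : L'.IsLine)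
    (φ : (L.baseChange K).Iso (L'.baseChange K)) :
    ∃ (c : K) (f : L.M0' ≃ₗ[O ⊗[k] X.A0] L'.M0'), c ≠ 0 ∧
      ∀ m : L.M0', (1 : K) ⊗ₜ[O] (f m : L'.M) = c • phi L L' φ ((1 : K) ⊗ₜ[O] (m : L.M)) := by
  haveI := hL.inv0
  haveI := hL'.inv0
  haveI := proj0 L hL
  haveI := proj0 L' hL'
  haveI := JPic.projM L hL
  haveI := JPic.projM L' hL'
  exact exists_chart_iso (dom0 X O) L.M0' L'.M0' (phi L L' φ) (phi_lact0 L L' φ) φ.map0

theorem chart1 {L L' : PreLD X O} (hL : L.IsLine) (hL' : L'.IsLine)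
    (φ : (L.baseChange K).Iso (L'.baseChange K)) :
    ∃ (c : K) (f : L.M1' ≃ₗ[O ⊗[k] X.A1] L'.M1'), c ≠ 0 ∧
      ∀ m : L.M1', (1 : K) ⊗ₜ[O] (f m : L'.M) = c • phi L L' φ ((1 : K) ⊗ₜ[O] (m : L.M)) := by
  haveI := hL.inv1
  haveI := hL'.inv1
  haveI := proj1 L hL
  haveI := proj1 L' hL'
  haveI := JPic.projM L hL
  haveI := JPic.projM L' hL'
  exact exists_chart_iso (dom1 X O) L.M1' L'.M1' (phi L L' φ) (phi_lact1 L L' φ) φ.map1

theorem isUnit_chart0 {L L' : PreLD X O} (hL : L.IsLine) (hL' : L'.IsLine)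
    (φ : (L.baseChange K).Iso (L'.baseChange K)) (c0 c1 : K)
    (f0 : L.M0' ≃ₗ[O ⊗[k] X.A0] L'.M0') (f1 : L.M1' ≃ₗ[O ⊗[k] X.A1] L'.M1')
    (h0 : ∀ m : L.M0', (1 : K) ⊗ₜ[O] (f0 m : L'.M) = c0 • phi L L' φ ((1 : K) ⊗ₜ[O] (m : L.M)))
    (h1 : ∀ m : L.M1', (1 : K) ⊗ₜ[O] (f1 m : L'.M) = c1 • phi L L' φ ((1 : K) ⊗ₜ[O] (m : L.M)))
    (a : O) (ha : c0 = algebraMap O K a * c1) : IsUnit a := by
  haveI := hL'.inv0
  haveI := JPic.projM L' hL'
  obtain ⟨x, hx⟩ := exists_notMem (O := O) (R := O ⊗[k] X.A0) (N := L'.M0') (dom0 X O)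
  obtain ⟨m, rfl⟩ := f0.surjective x
  obtain ⟨n, hn⟩ := L.ex1 (m : L.M)
  let w : L'.M1' := f1 ⟨_, hn⟩
  let z : L'.M := ((X.t : X.A) ^ n) • (w : L'.M)
  have hz : (1 : K) ⊗ₜ[O] z = c1 • phi L L' φ ((1 : K) ⊗ₜ[O] (m : L.M)) :=
    lift_of_smul φ c1 _ _ (tn_inv' X n) _ _ (h1 ⟨_, hn⟩)
  have hxz : (f0 m : L'.M) = a • z := by
    apply tmul_inj (O := O) (K := K)
    rw [h0, tmul_smul, hz, ha, mul_smul, algebraMap_smul]
  obtain ⟨p, hp⟩ := JKL.ex0' L' z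
  exact isUnit_of_smul (R := O ⊗[k] X.A0) (dom0 X O) L'.M0' (JKL.t0 X O) (t0_notMem X O) hx hxz p hp

theorem isUnit_chart1 {L L' : PreLD X O} (hL : L.IsLine) (hL' : L'.IsLine)
    (φ : (L.baseChange K).Iso (L'.baseChange K)) (c0 c1 : K)
    (f0 : L.M0' ≃ₗ[O ⊗[k] X.A0] L'.M0') (f1 : L.M1' ≃ₗ[O ⊗[k] X.A1] L'.M1')
    (h0 : ∀ m : L.M0', (1 : K) ⊗ₜ[O] (f0 m : L'.M) = c0 • phi L L' φ ((1 : K) ⊗ₜ[O] (m : L.M)))
    (h1 : ∀ m : L.M1', (1 : K) ⊗ₜ[O] (f1 m : L'.M) = c1 • phi L L' φ ((1 : K) ⊗ₜ[O] (m : L.M)))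
    (a : O) (ha : c1 = algebraMap O K a * c0) : IsUnit a := by
  haveI := hL'.inv1
  haveI := JPic.projM L' hL'
  obtain ⟨x, hx⟩ := exists_notMem (O := O) (R := O ⊗[k] X.A1) (N := L'.M1') (dom1 X O)
  obtain ⟨m, rfl⟩ := f1.surjective x
  obtain ⟨n, hn⟩ := L.ex0 (m : L.M)
  let w : L'.M0' := f0 ⟨_, hn⟩
  let z : L'.M := (((X.t⁻¹ : X.Aˣ) : X.A) ^ n) • (w : L'.M)
  have hz : (1 : K) ⊗ₜ[O] z = c0 • phi L L' φ ((1 : K) ⊗ₜ[O] (m : L.M)) :=
    lift_of_smul φ c0 _ _ (tn_inv X n) _ _ (h0 ⟨_, hn⟩)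
  have hxz : (f1 m : L'.M) = a • z := by
    apply tmul_inj (O := O) (K := K)
    rw [h1, tmul_smul, hz, ha, mul_smul, algebraMap_smul]
  obtain ⟨p, hp⟩ := JKL.ex1' L' z
  exact isUnit_of_smul (R := O ⊗[k] X.A1) (dom1 X O) L'.M1' (JKL.t1 X O) (t1_notMem X O) hx hxz p hp

/-- **Block L** : line bundles over a valuation ring with isomorphic generic fibres are
isomorphic. -/
theorem sep {L L' : PreLD X O} (hL : L.IsLine) (hL' : L'.IsLine)
    (φ : (L.baseChange K).Iso (L'.baseChange K)) : Nonempty (L.Iso L') := by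
  haveI := JPic.projM L hL
  haveI := JPic.projM L' hL'
  obtain ⟨c0, f0, hc0, h0⟩ := chart0 hL hL' φ
  obtain ⟨c1, f1, hc1, h1⟩ := chart1 hL hL' φ
  obtain ⟨v, hv⟩ : ∃ v : Oˣ, c0 = algebraMap O K v * c1 := by
    rcases ValuationRing.isInteger_or_isInteger O (c0 / c1) with ⟨a, ha⟩ | ⟨a, ha⟩
    · have ha' : c0 = algebraMap O K a * c1 := by rw [ha, div_mul_cancel₀ _ hc1]
      obtain ⟨v, rfl⟩ := isUnit_chart0 hL hL' φ c0 c1 f0 f1 h0 h1 a ha'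
      exact ⟨v, ha'⟩
    · have ha' : c1 = algebraMap O K a * c0 := by rw [ha, inv_div, div_mul_cancel₀ _ hc0]
      obtain ⟨v, rfl⟩ := isUnit_chart1 hL hL' φ c0 c1 f0 f1 h0 h1 a ha'
      refine ⟨v⁻¹, ?_⟩
      rw [ha', ← mul_assoc, ← map_mul, Units.inv_mul, map_one, one_mul]
  obtain ⟨e, he⟩ := exists_descend (phi L L' φ) c0 hc0
    (fun m => by
      obtain ⟨n, hn⟩ := L.ex0 m
      exact ⟨_, lift_of_smul φ c0 _ _ (tn_inv X n) m _ (h0 ⟨_, hn⟩)⟩)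
    (fun m' => by
      obtain ⟨n, hn⟩ := L'.ex0 m'
      refine ⟨_, lift_of_smul' φ c0 _ _ (tn_inv X n) (f0.symm ⟨_, hn⟩ : L.M0') m' ?_⟩
      rw [← h0, LinearEquiv.apply_symm_apply])
  have e0 : ∀ m : L.M0', e (m : L.M) = (f0 m : L'.M) := fun m => by
    apply tmul_inj (O := O) (K := K)
    rw [he, h0]
  have e1 : ∀ m : L.M1', e (m : L.M) = (v : O) • (f1 m : L'.M) := fun m => by
    apply tmul_inj (O := O) (K := K)
    rw [he, tmul_smul, h1, hv, mul_smul, algebraMap_smul]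
  refine ⟨⟨e, fun a m => ?_, ?_, ?_⟩⟩
  · apply tmul_inj (O := O) (K := K)
    rw [he, phi_one_act, ← map_smul, ← he, ← one_act]
  · apply le_antisymm
    · rintro _ ⟨m, hm, rfl⟩
      show e m ∈ L'.M0
      rw [e0 ⟨m, hm⟩]
      exact (f0 ⟨m, hm⟩).2
    · intro m' hm'
      refine ⟨(f0.symm ⟨m', hm'⟩ : L.M0'), (f0.symm ⟨m', hm'⟩).2, ?_⟩
      show e (f0.symm ⟨m', hm'⟩ : L.M0') = m'
      rw [e0, LinearEquiv.apply_symm_apply]
  · apply le_antisymm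
    · rintro _ ⟨m, hm, rfl⟩
      show e m ∈ L'.M1
      rw [e1 ⟨m, hm⟩]
      exact L'.M1.smul_mem _ (f1 ⟨m, hm⟩).2
    · intro m' hm'
      have hm2 : ((v⁻¹ : Oˣ) : O) • m' ∈ L'.M1' := L'.M1.smul_mem _ hm'
      refine ⟨(f1.symm ⟨_, hm2⟩ : L.M1'), (f1.symm ⟨_, hm2⟩).2, ?_⟩
      show e (f1.symm ⟨_, hm2⟩ : L.M1') = m'
      rw [e1, LinearEquiv.apply_symm_apply, ← mul_smul, Units.mul_inv, one_smul]

end

/-- separatedness of the functor of line bundles -/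
def SepStmt {k : Type u} [Field k] (X : TwoChart k) : Prop :=
  ∀ (O K : Type u) [CommRing O] [IsDomain O] [ValuationRing O] [Algebra k O] [Field K]
    [Algebra k K] [Algebra O K] [IsScalarTower k O K] [IsFractionRing O K] (L L' : PreLD X O),
    L.IsLine → L'.IsLine → Nonempty ((L.baseChange K).Iso (L'.baseChange K)) →
      Nonempty (L.Iso L')

theorem sepStmt {k : Type u} [Field k] (X : TwoChart k) : SepStmt X := by
  intro O K _ _ _ _ _ _ _ _ _ L L' hL hL' ⟨φ⟩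
  exact sep (K := K) hL hL' φ

end Fermat.Agent.JL
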