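import Fermat.Agent.JL.Chart
import Fermat.Agent.JKL.Loc
import Fermat.Agent.JPic.LDFin

/-!
# S25, block L: separatedness for line data over a valuation ring
-/

set_option autoImplicit false

universe u

open IsLocalRing TensorProduct

namespace Fermat.Agent.JL

open Fermat.Agent.JPC

section Dom

variable {k O : Type u} [Field k] [CommRing O] [IsDomain O] [ValuationRing O] [Algebra k O]

/-- the closed fibre of `O ⊗ A` is `κ ⊗ A` -/
theorem isDomain_quot (A : Type u) [CommRing A] [Algebra k A]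
    (h : IsDomain (ResidueField O ⊗[k] A)) :
    IsDomain ((O ⊗[k] A) ⧸ (maximalIdeal O).map (algebraMap O (O ⊗[k] A))) := by
  letI e1 := Algebra.TensorProduct.quotIdealMapEquivQuotTensor (A := O) (O ⊗[k] A) (maximalIdeal O)
  letI e2 := Algebra.TensorProduct.cancelBaseChange k O O (ResidueField O) A
  haveI := h
  have e : ((O ⊗[k] A) ⧸ (maximalIdeal O).map (algebraMap O (O ⊗[k] A))) ≃*
      ResidueField O ⊗[k] A := (e1.toMulEquiv).trans e2.toMulEquiv
  exact e.isDomain (ResidueField O ⊗[k] A)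

/-- units of `κ ⊗ A` -/
theorem notMem_map {A A' : Type u} [CommRing A] [Algebra k A] [CommRing A'] [Algebra k A']
    [Nontrivial (ResidueField O ⊗[k] A')] (f : A →ₐ[k] A') (a : A) (ha : IsUnit (f a)) :
    (1 : O) ⊗ₜ[k] a ∉ (maximalIdeal O).map (algebraMap O (O ⊗[k] A)) := by
  intro hmem
  let ψ : O ⊗[k] A →ₐ[k] ResidueField O ⊗[k] A' :=
    Algebra.TensorProduct.map (IsScalarTower.toAlgHom k O (ResidueField O)) f
  have h1 : (maximalIdeal O).map (algebraMap O (O ⊗[k] A)) ≤ RingHom.ker ψ.toRingHom := by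
    rw [Ideal.map_le_iff_le_comap]
    intro x hx
    rw [Ideal.mem_comap, RingHom.mem_ker, Algebra.TensorProduct.algebraMap_apply]
    show (algebraMap O (ResidueField O) x) ⊗ₜ[k] (f 1) = 0
    have : algebraMap O (ResidueField O) x = 0 := (residue_eq_zero_iff x).mpr hx
    rw [this, zero_tmul]
  have h2 : ψ ((1 : O) ⊗ₜ[k] a) = 0 := h1 hmem
  have h3 : (1 : ResidueField O) ⊗ₜ[k] (f a) = 0 := by
    have : ψ ((1 : O) ⊗ₜ[k] a) = (algebraMap O (ResidueField O) 1) ⊗ₜ[k] (f a) := rfl
    rw [← h2, this, map_one]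
  have h4 : IsUnit ((1 : ResidueField O) ⊗ₜ[k] (f a)) := by
    have := ha.map (Algebra.TensorProduct.includeRight : A' →ₐ[k] ResidueField O ⊗[k] A')
    exact this
  rw [h3] at h4
  exact not_isUnit_zero h4

end Dom

/-- an element outside of the maximal ideal -/
theorem exists_notMem {O R N : Type*} [CommRing O] [IsDomain O] [ValuationRing O] [CommRing R]
    [Algebra O R] [AddCommGroup N] [Module R N] [Module O N] [IsScalarTower O R N]
    [Module.Invertible R N] (hdom : IsDomain (R ⧸ (maximalIdeal O).map (algebraMap O R))) :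
    ∃ x : N, x ∉ (maximalIdeal O) • (⊤ : Submodule O N) := by
  let D := R ⧸ (maximalIdeal O).map (algebraMap O R)
  have h1 : Nontrivial (D ⊗[R] N) := nontrivial_of_invertible (S := D)
  by_contra hcon
  push Not at hcon
  have h2 : ∀ x : N, (1 : D) ⊗ₜ[R] x = 0 := by
    intro x
    refine Submodule.smul_induction_on (p := fun x => (1 : D) ⊗ₜ[R] x = 0) (hcon x) ?_ ?_
    · intro a ha y _
      have h0 : (algebraMap O R a) • (1 : D) = 0 := by
        rw [Algebra.smul_def, mul_one]
        exact Ideal.Quotient.eq_zero_iff_mem.mpr (Ideal.mem_map_of_mem _ ha)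
      rw [← algebraMap_smul R a y, tmul_smul, smul_tmul', h0, zero_tmul]
    · intro x y hx hy
      rw [tmul_add, hx, hy, add_zero]
  have h3 : ∀ z : D ⊗[R] N, z = 0 := by
    intro z
    induction z with
    | zero => rfl
    | tmul d x =>
      have : d ⊗ₜ[R] x = d • ((1 : D) ⊗ₜ[R] x) := by rw [smul_tmul', smul_eq_mul, mul_one]
      rw [this, h2, smul_zero]
    | add x y hx hy => rw [hx, hy, add_zero]
  obtain ⟨a, b, hab⟩ := h1
  exact hab ((h3 a).trans (h3 b).symm)

variable {k : Type u} [Field k] {X : TwoChart k} {O : Type u} [CommRing O] [IsDomain O]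
  [ValuationRing O] [Algebra k O]

theorem dom0 (X : TwoChart k) (O : Type u) [CommRing O] [IsDomain O] [ValuationRing O]
    [Algebra k O] :
    IsDomain ((O ⊗[k] X.A0) ⧸ (maximalIdeal O).map (algebraMap O (O ⊗[k] X.A0))) :=
  isDomain_quot X.A0 (X.ded0 (ResidueField O)).1

theorem dom1 (X : TwoChart k) (O : Type u) [CommRing O] [IsDomain O] [ValuationRing O]
    [Algebra k O] :
    IsDomain ((O ⊗[k] X.A1) ⧸ (maximalIdeal O).map (algebraMap O (O ⊗[k] X.A1))) :=
  isDomain_quot X.A1 (X.ded1 (ResidueField O)).1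

theorem t0_notMem (X : TwoChart k) (O : Type u) [CommRing O] [IsDomain O] [ValuationRing O]
    [Algebra k O] :
    JKL.t0 X O ∉ (maximalIdeal O).map (algebraMap O (O ⊗[k] X.A0)) := by
  haveI := X.dom (ResidueField O)
  exact notMem_map X.A0.val ⟨X.t, X.t_mem⟩ X.t.isUnit

theorem t1_notMem (X : TwoChart k) (O : Type u) [CommRing O] [IsDomain O] [ValuationRing O]
    [Algebra k O] :
    JKL.t1 X O ∉ (maximalIdeal O).map (algebraMap O (O ⊗[k] X.A1)) := by
  haveI := X.dom (ResidueField O)
  exact notMem_map X.A1.val ⟨((X.t⁻¹ : X.Aˣ) : X.A), X.tinv_mem⟩ (X.t⁻¹).isUnit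

theorem proj0 {B : Type u} [CommRing B] [Algebra k B] (L : PreLD X B) (hL : L.IsLine) :
    Module.Projective B L.M0' := by
  haveI := JPic.projM L hL
  obtain ⟨r, hr⟩ := JPic.ret0 L hL
  let i : L.M0' →ₗ[B] L.M := (L.M0'.subtype).restrictScalars B
  let s : L.M →ₗ[B] L.M0' :=
    { toFun := fun m => ⟨(r m : L.M), (r m).2⟩
      map_add' := fun x y => by
        apply Subtype.ext
        show ((r (x + y) : L.M0) : L.M) = (r x : L.M) + (r y : L.M)
        rw [map_add]; rfl
      map_smul' := fun b x => by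
        apply Subtype.ext
        show ((r (b • x) : L.M0) : L.M) = b • (r x : L.M)
        rw [map_smul]; rfl }
  refine Module.Projective.of_split i s ?_
  ext m
  show ((r (m : L.M) : L.M0) : L.M) = m
  exact congrArg Subtype.val (hr ⟨(m : L.M), m.2⟩)

theorem proj1 {B : Type u} [CommRing B] [Algebra k B] (L : PreLD X B) (hL : L.IsLine) :
    Module.Projective B L.M1' := by
  haveI := JPic.projM L hL
  obtain ⟨r, hr⟩ := JPic.ret1 L hL
  let i : L.M1' →ₗ[B] L.M := (L.M1'.subtype).restrictScalars B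
  let s : L.M →ₗ[B] L.M1' :=
    { toFun := fun m => ⟨(r m : L.M), (r m).2⟩
      map_add' := fun x y => by
        apply Subtype.ext
        show ((r (x + y) : L.M1) : L.M) = (r x : L.M) + (r y : L.M)
        rw [map_add]; rfl
      map_smul' := fun b x => by
        apply Subtype.ext
        show ((r (b • x) : L.M1) : L.M) = b • (r x : L.M)
        rw [map_smul]; rfl }
  refine Module.Projective.of_split i s ?_
  ext m
  show ((r (m : L.M) : L.M1) : L.M) = m
  exact congrArg Subtype.val (hr ⟨(m : L.M), m.2⟩)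

section Phi

variable {K : Type u} [Field K] [Algebra k K] [Algebra O K] [IsScalarTower k O K]
  (L L' : PreLD X O) (φ : (L.baseChange K).Iso (L'.baseChange K))

/-- the isomorphism of generic fibres -/
def phi : K ⊗[O] L.M ≃ₗ[K] K ⊗[O] L'.M := φ.e

omit [IsDomain O] [ValuationRing O] in
theorem phi_act (a : X.A) (z : K ⊗[O] L.M) :
    phi L L' φ ((L.actA a).baseChange K z) = (L'.actA a).baseChange K (phi L L' φ z) :=
  φ.smul a z

omit [IsDomain O] [ValuationRing O] in
theorem phi_lact0 (r : O ⊗[k] X.A0) (z : K ⊗[O] L.M) :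
    phi L L' φ ((lact O L.M r).baseChange K z) = (lact O L'.M r).baseChange K (phi L L' φ z) := by
  induction r using TensorProduct.induction_on with
  | zero =>
    have h1 : lact O L.M (0 : O ⊗[k] X.A0) = 0 := by
      ext m; exact zero_smul (O ⊗[k] X.A0) m
    have h2 : lact O L'.M (0 : O ⊗[k] X.A0) = 0 := by
      ext m; exact zero_smul (O ⊗[k] X.A0) m
    rw [h1, h2, LinearMap.baseChange_zero, LinearMap.baseChange_zero, LinearMap.zero_apply,
      LinearMap.zero_apply, map_zero]
  | tmul b a =>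
    have h1 : lact O L.M (b ⊗ₜ[k] a : O ⊗[k] X.A0) = b • L.actA (a : X.A) := rfl
    have h2 : lact O L'.M (b ⊗ₜ[k] a : O ⊗[k] X.A0) = b • L'.actA (a : X.A) := rfl
    rw [h1, h2, LinearMap.baseChange_smul, LinearMap.baseChange_smul, LinearMap.smul_apply,
      LinearMap.smul_apply, ← phi_act, ← algebraMap_smul K b, ← algebraMap_smul K b, map_smul]
  | add x y hx hy =>
    have h1 : lact O L.M (x + y : O ⊗[k] X.A0) = lact O L.M x + lact O L.M y := by
      ext m; exact add_smul x y m
    have h2 : lact O L'.M (x + y : O ⊗[k] X.A0) = lact O L'.M x + lact O L'.M y := by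
      ext m; exact add_smul x y m
    rw [h1, h2, LinearMap.baseChange_add, LinearMap.baseChange_add, LinearMap.add_apply,
      LinearMap.add_apply, map_add, hx, hy]

omit [IsDomain O] [ValuationRing O] in
theorem phi_lact1 (r : O ⊗[k] X.A1) (z : K ⊗[O] L.M) :
    phi L L' φ ((lact O L.M r).baseChange K z) = (lact O L'.M r).baseChange K (phi L L' φ z) := by
  induction r using TensorProduct.induction_on with
  | zero =>
    have h1 : lact O L.M (0 : O ⊗[k] X.A1) = 0 := by
      ext m; exact zero_smul (O ⊗[k] X.A1) m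
    have h2 : lact O L'.M (0 : O ⊗[k] X.A1) = 0 := by
      ext m; exact zero_smul (O ⊗[k] X.A1) m
    rw [h1, h2, LinearMap.baseChange_zero, LinearMap.baseChange_zero, LinearMap.zero_apply,
      LinearMap.zero_apply, map_zero]
  | tmul b a =>
    have h1 : lact O L.M (b ⊗ₜ[k] a : O ⊗[k] X.A1) = b • L.actA (a : X.A) := rfl
    have h2 : lact O L'.M (b ⊗ₜ[k] a : O ⊗[k] X.A1) = b • L'.actA (a : X.A) := rfl
    rw [h1, h2, LinearMap.baseChange_smul, LinearMap.baseChange_smul, LinearMap.smul_apply,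
      LinearMap.smul_apply, ← phi_act, ← algebraMap_smul K b, ← algebraMap_smul K b, map_smul]
  | add x y hx hy =>
    have h1 : lact O L.M (x + y : O ⊗[k] X.A1) = lact O L.M x + lact O L.M y := by
      ext m; exact add_smul x y m
    have h2 : lact O L'.M (x + y : O ⊗[k] X.A1) = lact O L'.M x + lact O L'.M y := by
      ext m; exact add_smul x y m
    rw [h1, h2, LinearMap.baseChange_add, LinearMap.baseChange_add, LinearMap.add_apply,
      LinearMap.add_apply, map_add, hx, hy]

omit [IsDomain O] [ValuationRing O] in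
/-- `φ` on pure tensors -/
theorem phi_one_act (a : X.A) (m : L.M) :
    phi L L' φ ((1 : K) ⊗ₜ[O] (a • m)) = (L'.actA a).baseChange K (phi L L' φ ((1 : K) ⊗ₜ[O] m)) := by
  rw [← phi_act]; rfl

omit [IsDomain O] [ValuationRing O] in
theorem one_act (a : X.A) (m : L.M) :
    (1 : K) ⊗ₜ[O] (a • m) = (L.actA a).baseChange K ((1 : K) ⊗ₜ[O] m) := rfl

end Phi

end Fermat.Agent.JL
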